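/- S56 / TOP: the glue has been promoted to `Fermat/Agent/S56/Top/Glue.lean`. -/
import Fermat.Agent.S56.Top.Glue
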